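import Fermat.Agent.LT.Tr.PushProd
import Fermat.Agent.LT.Sttf.Conv
import Fermat.Agent.LT.H3.Radial

/-!
# The transferred kernel at the infinite place; supports and bounds of product kernels
-/

set_option autoImplicit false

noncomputable section

namespace Fermat.Agent.LT.B7

open MeasureTheory NumberField Fermat.Agent.LT.Dict Fermat.Agent.LT.H3
open scoped ENNReal

theorem kcomp3_rk {κ₁ κ₂ κ₃ : ℝ → ℂ} (h₁ : IsKer κ₁) (h₂ : IsKer κ₂) (h₃ : IsKer κ₃) (P Q : H3) :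
    kcomp3 volume (rk κ₁) (rk κ₂) (rk κ₃) P Q = kap0 (kap0 κ₁ κ₂) κ₃ (cu P Q) := by
  rw [← kap_eq_kap0, kap]
  have hi : Integrable (fun yz : H3 × H3 => rk κ₁ P yz.1 * rk κ₂ yz.1 yz.2 * rk κ₃ yz.2 Q)
      ((volume : Measure H3).prod volume) := by
    obtain ⟨C₁, hC₁⟩ := h₁.bdd
    obtain ⟨C₃, hC₃⟩ := h₃.bdd
    refine integrable_of_support ?_ ((isCompact_ball P C₁).prod (isCompact_ball_left Q C₃)) ?_
    · exact ((h₁.cont.comp (continuous_cu' continuous_const continuous_fst)).mul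
        (h₂.cont.comp (continuous_cu' continuous_fst continuous_snd))).mul
        (h₃.cont.comp (continuous_cu' continuous_snd continuous_const))
    · rintro ⟨y, z⟩ h
      by_cases h1 : cu P y ≤ C₁
      · have h2 : ¬ cu z Q ≤ C₃ := fun h2 => h ⟨h1, h2⟩
        show κ₁ _ * κ₂ _ * κ₃ (cu z Q) = 0
        rw [hC₃ _ (not_le.mp h2).le, mul_zero]
      · show κ₁ (cu P y) * κ₂ _ * κ₃ _ = 0
        rw [hC₁ _ (not_le.mp h1).le, zero_mul, zero_mul]
  rw [kcomp3, integral_prod_symm _ hi]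
  refine integral_congr_ae (Filter.Eventually.of_forall fun z => ?_)
  show ∫ y, κ₁ (cu P y) * κ₂ (cu y z) * κ₃ (cu z Q) = kap0 κ₁ κ₂ (cu P z) * κ₃ (cu z Q)
  rw [integral_mul_const, ← kap_eq_kap0, kap]

/-- the radial function of the transferred kernel -/
def down3 {ι : Type*} (κ : ι → ℝ → ℂ) (e : Fin 3 ≃ ι) : ℝ → ℂ :=
  kap0 (kap0 (κ (e 0)) (κ (e 1))) (κ (e 2))

theorem isKer_down3 {ι : Type*} {κ : ι → ℝ → ℂ} (hκ : ∀ w, IsKer (κ w)) (e : Fin 3 ≃ ι) :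
    IsKer (down3 κ e) :=
  isKer_kap0 (isKer_kap0 (hκ _) (hκ _)) (hκ _)

/-- **The transferred kernel is radial.** -/
theorem kerDown_eq {K L : Type*} [Field K] [Field L] [NumberField K] [Algebra K L]
    [Unique (InfinitePlace K)] {κ : InfinitePlace L → ℝ → ℂ} (hκ : ∀ w, IsKer (κ w))
    (e : Fin 3 ≃ InfinitePlace L) :
    (kerDown κ e : Xi K → Xi K → ℂ) = kerXi fun _ => down3 κ e := by
  funext y y'
  rw [kerDown, kcomp3_rk (hκ _) (hκ _) (hκ _), kerXi, Fintype.prod_unique]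
  rfl

/-! ### Supports and bounds -/

section Supp

variable {F : Type*} [Field F] [NumberField F] {D : Type*}

/-- a common bound of the supports -/
theorem exists_supp {κ : InfinitePlace F → ℝ → ℂ} (hκ : ∀ w, IsKer (κ w)) :
    ∃ R : ℝ, 0 < R ∧ ∀ w t, κ w t ≠ 0 → t ≤ R := by
  choose C hC using fun w => (hκ w).exists_pos
  refine ⟨1 + ∑ w, C w, ?_, fun w t ht => ?_⟩
  · have : 0 ≤ ∑ w, C w := Finset.sum_nonneg fun w _ => (hC w).1.le
    linarith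
  · by_contra h
    push Not at h
    refine ht ((hC w).2 t ?_)
    have h1 : C w ≤ ∑ w, C w :=
      Finset.single_le_sum (fun w _ => (hC w).1.le) (Finset.mem_univ w)
    linarith

theorem cu_le_of_kerXi_ne_zero {κ : InfinitePlace F → ℝ → ℂ} {R : ℝ}
    (hR : ∀ w t, κ w t ≠ 0 → t ≤ R) {x x' : Xi F} (h : kerXi κ x x' ≠ 0) (w : InfinitePlace F) :
    cu (x w) (x' w) ≤ R := by
  refine hR w _ fun h0 => h ?_
  exact Finset.prod_eq_zero (Finset.mem_univ w) h0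

theorem suppIn_pker {κ : InfinitePlace F → ℝ → ℂ} {R : ℝ} (hR : ∀ w t, κ w t ≠ 0 → t ≤ R)
    {a : D → D → ℂ} (ha : ∀ d, {d' | a d d' ≠ 0}.Finite) :
    Sttf.SuppIn R (fun d => (ha d).toFinset) (pker (kerXi κ) a) := by
  intro z z' h
  refine ⟨cu_le_of_kerXi_ne_zero hR (left_ne_zero_of_mul h), ?_⟩
  rw [Set.Finite.mem_toFinset]
  exact right_ne_zero_of_mul h

theorem exists_norm_le_isKer {k : ℝ → ℂ} (hk : IsKer k) : ∃ B : ℝ, ∀ t, 1 ≤ t → ‖k t‖ ≤ B := by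
  obtain ⟨C, hC⟩ := hk.bdd
  obtain ⟨B, hB⟩ := (isCompact_Icc (a := (1 : ℝ)) (b := C)).exists_bound_of_continuousOn
    hk.cont.continuousOn
  refine ⟨max B 0, fun t ht => ?_⟩
  by_cases h : C ≤ t
  · rw [hC t h, norm_zero]
    exact le_max_right _ _
  · exact (hB t ⟨ht, (not_le.mp h).le⟩).trans (le_max_left _ _)

theorem exists_bound_kerXi {κ : InfinitePlace F → ℝ → ℂ} (hκ : ∀ w, IsKer (κ w)) :
    ∃ B : ℝ, ∀ x x' : Xi F, ‖kerXi κ x x'‖ ≤ B := by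
  choose B hB using fun w => exists_norm_le_isKer (hκ w)
  refine ⟨∏ w, B w, fun x x' => ?_⟩
  rw [kerXi, norm_prod]
  exact Finset.prod_le_prod (fun _ _ => norm_nonneg _) fun w _ => hB w _ (one_le_cu _ _)

/-- An invariant row finite kernel on a set with finitely many orbits is bounded. -/
theorem exists_bound_of_orbits {G : Type*} [Group G] [MulAction G D]
    (hT : ∃ T : Finset D, ∀ d, ∃ g : G, g • d ∈ T) {a : D → D → ℂ}
    (hinv : ∀ (g : G) x y, a (g • x) (g • y) = a x y) (hrow : ∀ d, {d' | a d d' ≠ 0}.Finite) :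
    ∃ B : ℝ, ∀ d d', ‖a d d'‖ ≤ B := by
  classical
  obtain ⟨T, hT⟩ := hT
  refine ⟨∑ d ∈ T, ∑ d' ∈ (hrow d).toFinset, ‖a d d'‖, fun d d' => ?_⟩
  have h0 : ∀ d, 0 ≤ ∑ d' ∈ (hrow d).toFinset, ‖a d d'‖ := fun d =>
    Finset.sum_nonneg fun _ _ => norm_nonneg _
  obtain ⟨g, hg⟩ := hT d
  rw [← hinv g]
  by_cases h : a (g • d) (g • d') = 0
  · rw [h, norm_zero]
    exact Finset.sum_nonneg fun d _ => h0 d
  · refine le_trans ?_ (Finset.single_le_sum (fun d _ => h0 d) hg)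
    exact Finset.single_le_sum (f := fun d' => ‖a (g • d) d'‖) (fun _ _ => norm_nonneg _)
      ((Set.Finite.mem_toFinset _).mpr h)

theorem exists_bound_pker {κ : InfinitePlace F → ℝ → ℂ} (hκ : ∀ w, IsKer (κ w)) {a : D → D → ℂ}
    (ha : ∃ B : ℝ, ∀ d d', ‖a d d'‖ ≤ B) :
    ∃ B : ℝ≥0∞, B ≠ ∞ ∧ ∀ z z' : Xi F × D, ‖pker (kerXi κ) a z z'‖ₑ ≤ B := by
  obtain ⟨B, hB⟩ := exists_bound_kerXi hκ
  obtain ⟨B', hB'⟩ := ha
  refine ⟨ENNReal.ofReal (B * B'), ENNReal.ofReal_ne_top, fun z z' => ?_⟩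
  rw [← ofReal_norm_eq_enorm, pker, norm_mul]
  refine ENNReal.ofReal_le_ofReal (mul_le_mul (hB _ _) (hB' _ _) (norm_nonneg _) ?_)
  exact (norm_nonneg _).trans (hB z.1 z'.1)

end Supp

end Fermat.Agent.LT.B7

end
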