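import Fermat.Agent.LT.Tr.PushProd
import Fermat.Agent.LT.Red.Weight
import Fermat.Agent.LT.Sttf.Conv

/-!
# Absolute convergence of the geometric side, for any weight
-/

set_option autoImplicit false

noncomputable section

namespace Fermat.Agent.LT.B7

open MeasureTheory NumberField Matrix Fermat.Agent.LT.Dict Fermat.Agent.LT.Sttf
open Fermat.Agent.LT.H3
open scoped ENNReal

section hfin

variable {F : Type*} [Field F] [NumberField F] [IsTotallyComplex F] {D : Type*}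
  [MulAction (GL (Fin 2) F) D] [IsLevel F D] [MeasurableSpace D] [DiscreteMeasurableSpace D]

/-- **Absolute convergence of the twisted diagonal.** -/
theorem lintegral_twist_ne_top {w : Xi F × D → ℝ≥0∞} (hw : IsWeight (PG F) w)
    {R : ℝ} (hR : 0 < R) {Nb : D → Finset D} {φ : Xi F × D → Xi F × D → ℂ}
    (hφ : SuppIn R Nb φ) {B : ℝ≥0∞} (hB : B ≠ ∞) (hφB : ∀ z z', ‖φ z z'‖ₑ ≤ B)
    (hm : Measurable (Function.uncurry φ))
    (hinv : ∀ (g : PG F) z z', φ (g • z) (g • z') = φ z z')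
    (τ : F ≃+* F) (τD : D → D) (hT : Measurable (tauZ τ τD)) (σ : PG F ≃* PG F)
    (hTe : ∀ (g : PG F) z, tauZ τ τD (g • z) = σ g • tauZ τ τD z)
    (hreg : ∀ (g : GL (Fin 2) F) (z : Xi F × D), φ z (g • tauZ τ τD z) ≠ 0 → g 1 0 ≠ 0) :
    ∫⁻ z, ∑' δ : PG F, ‖φ z (δ • tauZ τ τD z)‖ₑ ∂(muZ F D).withDensity w ≠ ∞ := by
  have hcD : Countable D := IsLevel.countable F
  obtain ⟨c, T0, w₀, hc, hw₀, hle, hfin⟩ := exists_weight F D
  have hmeas : Measurable fun z => ∑' δ : PG F, ‖φ z (δ • tauZ τ τD z)‖ₑ :=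
    Measurable.tsum fun δ => (hm.comp (measurable_id.prodMk
      ((measurable_const_smul δ).comp hT))).enorm
  have hinv' : ∀ (g : PG F) z, ∑' δ : PG F, ‖φ (g • z) (δ • tauZ τ τD (g • z))‖ₑ =
      ∑' δ : PG F, ‖φ z (δ • tauZ τ τD z)‖ₑ := by
    intro g z
    let e : PG F ≃ PG F := (Equiv.mulLeft g).trans (Equiv.mulRight (σ g)⁻¹)
    have he : ∀ δ, e δ = g * δ * (σ g)⁻¹ := fun _ => rfl
    rw [← e.tsum_eq]
    refine tsum_congr fun δ => ?_
    rw [he, hTe, smul_smul, inv_mul_cancel_right, mul_smul, hinv]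
  rw [hw.lintegral_eq hw₀ hmeas hinv']
  obtain ⟨M, hM, hMb⟩ := exists_bound_twist c T0 hR hφ hB hφB τ τD hreg
  rw [lintegral_withDensity_eq_lintegral_mul _ hw₀.meas hmeas]
  refine ne_top_of_le_ne_top (ENNReal.mul_ne_top hfin.ne hM) ?_
  rw [← lintegral_mul_const _ hw₀.meas]
  refine lintegral_mono fun z => ?_
  show w₀ z * _ ≤ w₀ z * M
  by_cases hz : z ∈ Sieg F c (T0 : Set D)
  · rw [Sieg_eq_siegelSet] at hz
    gcongr
    exact hMb z hz
  · have h0 : w₀ z = 0 := by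
      have := hle z
      rw [Set.indicator_of_notMem hz] at this
      exact le_antisymm this zero_le
    rw [h0, zero_mul, zero_mul]

end hfin

end Fermat.Agent.LT.B7

end
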