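import Fermat.Agent.LT.B7.Fin
import Fermat.Agent.LT.B7.Down
import Fermat.Agent.LT.Tr.Places
import Fermat.Agent.LT.B8.Almost
import Fermat.Agent.LT.MatchSplitHK
import Fermat.Agent.LT.HK.Prod
import Fermat.Agent.LT.TwVanish
import Fermat.Agent.LT.RegTau
import Fermat.Agent.LT.Level.Meas

/-!
# Equality of the geometric sides for pure tensors

`a w`, `b v` : Hecke kernels at the finite places of `L`, `K`, almost all equal to `1`;
`κ w` : radial kernels at the infinite places of `L`.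
-/

set_option autoImplicit false

noncomputable section

open IsDedekindDomain NumberField Function Set MeasureTheory
open scoped ENNReal

namespace Fermat.Agent.LT.B7

open Fermat.Agent.LT.Ext Fermat.Agent.LT.Lvl Fermat.Agent.LT.Dict Fermat.Agent.LT.H3
open Fermat.Agent.LT.B8

section Tensor

variable {F : Type*} [Field F] [NumberField F] {U : Lev F}

/-- the kernel on `D U` with the local components `a v` -/
def tk (a : ∀ v : HeightOneSpectrum (𝓞 F), HK (GL (Fin 2) (v.adicCompletion F)) (Lvl.Dv U v)) :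
    D U → D U → ℂ := RProd.kprod fun v => (a v).ker

variable {a : ∀ v : HeightOneSpectrum (𝓞 F), HK (GL (Fin 2) (v.adicCompletion F)) (Lvl.Dv U v)}

theorem kadm_loc (ha : {v | a v ≠ 1}.Finite) :
    RProd.KAdm (R := ℂ) (fun v => (a v).ker) where
  row v x := (a v).finite_row x
  col v y := (a v).finite_col y
  ind := ha.subset fun v hv h => hv (by
    classical
    rw [show a v = 1 from h, HK.ker_one'])

theorem tk_smul (g : GL (Fin 2) F) (x y : D U) : tk a (g • x) (g • y) = tk a x y :=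
  RProd.kprod_smul (fun g v x y => (a v).ker_smul_smul (gmap v g) x y) g x y

theorem tk_smul_pg (g : PG F) (x y : D U) : tk a (g • x) (g • y) = tk a x y := by
  obtain ⟨g, rfl⟩ := pmk_surjective g
  exact tk_smul g x y

theorem tk_row (ha : {v | a v ≠ 1}.Finite) (d : D U) : {d' | tk a d d' ≠ 0}.Finite :=
  (kadm_loc ha).finite_row d

theorem tk_ne_zero (ha : {v | a v ≠ 1}.Finite) {x y : D U} (h : tk a x y ≠ 0)
    (v : HeightOneSpectrum (𝓞 F)) : (a v).ker (x v) (y v) ≠ 0 :=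
  (kadm_loc ha).ne_zero h v

theorem tk_bound (ha : {v | a v ≠ 1}.Finite) : ∃ B : ℝ, ∀ d d', ‖tk a d d'‖ ≤ B :=
  exists_bound_of_orbits (G := GL (Fin 2) F) (IsLevel.finite_orbits (F := F) (D := D U))
    tk_smul (tk_row ha)

end Tensor

section Main

variable {K : Type} {L : Type*} [Field K] [Field L] [NumberField K] [NumberField L] [Algebra K L]
  [IsTotallyComplex K] [IsTotallyComplex L] [Unique (InfinitePlace K)]
  [IsGaloisGroup (L ≃ₐ[K] L) K L] {τ : L ≃ₐ[K] L}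
  {U : Lev L} {UK : Lev K} {hU : GStable (L ≃ₐ[K] L) U.U}
  {a : ∀ w : HeightOneSpectrum (𝓞 L), HK (GL (Fin 2) (w.adicCompletion L)) (Lvl.Dv U w)}
  {b : ∀ v : HeightOneSpectrum (𝓞 K), HK (GL (Fin 2) (v.adicCompletion K)) (Lvl.Dv UK v)}
  {κ : InfinitePlace L → ℝ → ℂ} {e : Fin 3 ≃ InfinitePlace L}

omit [IsTotallyComplex L] [IsTotallyComplex K] [Unique (InfinitePlace K)]
  [NumberField K] [IsGaloisGroup (L ≃ₐ[K] L) K L] in
theorem tauD_smul_pg (g : PG L) (d : D U) : tauD hU τ (g • d) = Dict.pt τ g • tauD hU τ d := by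
  obtain ⟨g, rfl⟩ := pmk_surjective g
  exact tauD_smul hU τ g d

omit [IsGaloisGroup (L ≃ₐ[K] L) K L] [Unique (InfinitePlace K)] [IsTotallyComplex K]
  [NumberField K] in
/-- **Absolute convergence** over `L`. -/
theorem fin_L (hκ : ∀ w, IsKer (κ w)) (ha : {w | a w ≠ 1}.Finite)
    (hregL : ∀ (g : GL (Fin 2) L) (z : Xi L × D U),
      pker (kerXi κ) (tk a) z (g • (Xi.tau (τ : L ≃+* L) z.1, tauD hU τ z.2)) ≠ 0 →
      PEll (pnm τ (pmk g)) ∧ g 1 0 ≠ 0)
    {w : Xi L × D U → ℝ≥0∞} (hw : IsWeight (PG L) w) :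
    ∫⁻ z, ∑' δ : PG L,
      ‖pker (kerXi κ) (tk a) z (δ • Prod.map (Xi.tau (τ : L ≃+* L)) (tauD hU τ) z)‖ₑ
      ∂(muZ L (D U)).withDensity w ≠ ∞ := by
  have hκm : ∀ w, Measurable (κ w) := fun w => (hκ w).cont.measurable
  obtain ⟨R, hR, hRs⟩ := exists_supp hκ
  obtain ⟨B, hB, hBs⟩ := exists_bound_pker (D := D U) hκ (tk_bound ha)
  refine lintegral_twist_ne_top hw hR (suppIn_pker hRs (tk_row ha)) hB hBs
    (measurable_pker (measurable_kerXi hκm) _) (pker_smul (kerXi_smul κ) tk_smul_pg)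
    (τ : L ≃+* L) (tauD hU τ)
    ((Xi.continuous_tau _).measurable.prodMap Measurable.of_discrete) (Dict.pt τ)
    (fun g z => Prod.ext (xi_tau_smul τ g z.1) (tauD_smul_pg g z.2)) fun g z h => ?_
  exact (hregL g z h).2

omit [IsGaloisGroup (L ≃ₐ[K] L) K L] [NumberField L] [IsTotallyComplex L] in
/-- **Absolute convergence** over `K`. -/
theorem fin_K (hκ : ∀ w, IsKer (κ w)) (hb : {v | b v ≠ 1}.Finite)
    (hregK : ∀ (g : GL (Fin 2) K) (z : Xi K × D UK),
      pker (kerDown κ e) (tk b) z (g • z) ≠ 0 → PEll (pmk g) ∧ g 1 0 ≠ 0)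
    {w' : Xi K × D UK → ℝ≥0∞} (hw' : IsWeight (PG K) w') :
    ∫⁻ z, ∑' δ : PG K, ‖pker (kerDown κ e) (tk b) z (δ • z)‖ₑ
      ∂(muZ K (D UK)).withDensity w' ≠ ∞ := by
  have hdown := kerDown_eq (K := K) hκ e
  have hκd : ∀ _ : InfinitePlace K, IsKer (down3 κ e) := fun _ => isKer_down3 hκ e
  have htau : ∀ z : Xi K × D UK, Sttf.tauZ (RingEquiv.refl K) id z = z := fun z =>
    Prod.ext (Xi.tau_refl z.1) rfl
  obtain ⟨R, hR, hRs⟩ := exists_supp hκd
  obtain ⟨B, hB, hBs⟩ := exists_bound_pker (D := D UK) hκd (tk_bound hb)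
  have key := lintegral_twist_ne_top hw' hR (suppIn_pker hRs (tk_row hb)) hB hBs
    (measurable_pker (measurable_kerXi fun w => (hκd w).cont.measurable) _)
    (pker_smul (kerXi_smul _) tk_smul_pg)
    (RingEquiv.refl K) id
    ((Xi.continuous_tau _).measurable.prodMap Measurable.of_discrete) (MulEquiv.refl (PG K))
    (fun g z => by rw [htau, htau]; rfl) fun g z h => ?_
  · simp only [htau] at key
    rw [hdown]
    exact key
  · rw [htau, ← hdown] at h
    exact (hregK g z h).2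

omit [IsGaloisGroup (L ≃ₐ[K] L) K L] in
/-- **The geometric sides agree**, for pure tensors: from the discrete comparison `hD`. -/
theorem geom_eq_of_push {ζ : K} (hζ : IsPrimitiveRoot ζ 3) (hτ : Cyc3 τ)
    (h3 : Module.finrank K L = 3) {c : Kˣ} {α : L} (hα : α ^ 3 = algebraMap K L c)
    (hL : IntermediateField.adjoin K {α} = ⊤)
    (he : CycPlaces τ e) (hκ : ∀ w, IsKer (κ w))
    (ha : {w | a w ≠ 1}.Finite) (hb : {v | b v ≠ 1}.Finite)
    (hD : ∀ (x : PG L) (γ : PG K), PEll γ → pnm τ x = pup L γ → ∃ p : D U → D UK,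
      PushD (L := L) γ p (fun d => tk a d (x • tauD hU τ d)) fun d => tk b d (γ • d))
    (hgood : ∀ v, LT.GoodAt c v (b v).ker)
    (hregL : ∀ (g : GL (Fin 2) L) (z : Xi L × D U),
      pker (kerXi κ) (tk a) z (g • (Xi.tau (τ : L ≃+* L) z.1, tauD hU τ z.2)) ≠ 0 →
      PEll (pnm τ (pmk g)) ∧ g 1 0 ≠ 0)
    (hregK : ∀ (g : GL (Fin 2) K) (z : Xi K × D UK),
      pker (kerDown κ e) (tk b) z (g • z) ≠ 0 → PEll (pmk g) ∧ g 1 0 ≠ 0)
    {w : Xi L × D U → ℝ≥0∞} (hw : IsWeight (PG L) w)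
    {w' : Xi K × D UK → ℝ≥0∞} (hw' : IsWeight (PG K) w') :
    ∫ z, aut (PG L) (pker (kerXi κ) (tk a)) z (Xi.tau (τ : L ≃+* L) z.1, tauD hU τ z.2)
        ∂(muZ L (D U)).withDensity w =
      ∫ z, aut (PG K) (pker (kerDown κ e) (tk b)) z z ∂(muZ K (D UK)).withDensity w' := by
  have hκm : ∀ w, Measurable (κ w) := fun w => (hκ w).cont.measurable
  refine integral_aut_eq_prod hτ he hw hw' hκm (tauD_smul_pg (hU := hU)) tk_smul_pg tk_smul_pg
    (fin_L hκ ha hregL hw) (fin_K hκ hb hregK hw') ?_ ?_ ?_ hD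
  · intro x hx z
    by_contra h
    obtain ⟨g, rfl⟩ := pmk_surjective x
    exact hx (hregL g z h).1
  · intro x hx z
    by_contra h
    obtain ⟨g, rfl⟩ := pmk_surjective x
    exact hx (hregK g z h).1
  · intro γ hγ hn z
    have h0 := kprod_eq_zero_of_not_isPNorm hζ hτ h3 hα hL (kadm_loc hb) hgood hγ hn z.2
    show kerDown κ e _ _ * RProd.kprod (fun v => (b v).ker) z.2 (γ • z.2) = 0
    rw [h0, mul_zero]

omit [IsTotallyComplex K] [IsTotallyComplex L] [Unique (InfinitePlace K)] in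
/-- the discrete comparison from the local ones -/
theorem pushD_of_local (hτ : Cyc3 τ) (ha : {w | a w ≠ 1}.Finite)
    (hpush : ∀ (δ : GL (Fin 2) L) (g : GL (Fin 2) K), Rep τ δ g → ∀ v,
      LocPush hU UK τ v δ g (kA (fun w => (a w).ker) v) (b v).ker)
    (hpush₁ : ∀ (δ : GL (Fin 2) L) (g : GL (Fin 2) K), Rep τ δ g →
      {v | ¬ LocPush₁ hU UK τ v δ g (kA (fun w => (a w).ker) v) (b v).ker}.Finite)
    (x : PG L) (γ : PG K) (hγ : PEll γ) (hx : pnm τ x = pup L γ) :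
    ∃ p : D U → D UK,
      PushD (L := L) γ p (fun d => tk a d (x • tauD hU τ d)) fun d => tk b d (γ • d) := by
  obtain ⟨p, hp1, hp2, hp3⟩ := exists_push hU UK (kA fun w => (a w).ker) (fun v => (b v).ker)
    hτ hpush hpush₁ hγ hx
  have hk : ∀ d : D U, kerL (kA fun w => (a w).ker) d (x • tauD hU τ d) =
      tk a d (x • tauD hU τ d) := fun d => kprod_regroup (K := K) (kadm_loc ha) _ _
  simp only [hk] at hp1 hp2 hp3
  exact ⟨p, hp1, hp2, hp3⟩

end Main

end Fermat.Agent.LT.B7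

end
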