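import Fermat.Agent.LT.B7.Geom
import Fermat.Agent.LT.B8.Main
import Fermat.Agent.LT.RegKer
import Fermat.Agent.LT.Tr.SymGeom

/-!
# Equality of the geometric sides, final form

`k : Kinf L`; `A`, `B` : Hecke kernels on `D U`, `D UK` with local components `a w`, `b v`.
The components outside the place `u` are fixed (`a₀`, `b₀`); at `u` the relative position is
`I t^n I`, with `n` large.
-/

set_option autoImplicit false

noncomputable section

open IsDedekindDomain NumberField Function Set MeasureTheory WithZero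
open scoped ENNReal Pointwise

namespace Fermat.Agent.LT.B7

open Fermat.Agent.LT.Ext Fermat.Agent.LT.Lvl Fermat.Agent.LT.Dict Fermat.Agent.LT.H3
open Fermat.Agent.LT.B8 Fermat.Agent.LT.Tr Fermat.Agent.LT.Pos Fermat.Agent.LT.Iwa
open Fermat.Agent.CFT.SUnits

variable {K : Type} {L : Type*} [Field K] [Field L] [NumberField K] [NumberField L] [Algebra K L]
  [IsTotallyComplex K] [IsTotallyComplex L] [Unique (InfinitePlace K)] [IsGalois K L]
  {τ : L ≃ₐ[K] L} {U : Lev L} {UK : Lev K}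

/-- **The geometric sides agree**, final form, with absolute convergence of
both sides: from the discrete comparison `hD`. -/
theorem exists_geom_of_push_fin (hU : GStable (L ≃ₐ[K] L) U.U)
    {ζ : K} (hζ : IsPrimitiveRoot ζ 3) (hτ : Cyc3 τ) (h3 : Module.finrank K L = 3) (hτ1 : τ ≠ 1)
    {s : InfinitePlace K → InfinitePlace L} (hs : Xi.IsAbove (algebraMap K L) s)
    {c : Kˣ} {α : L} (hα : α ^ 3 = algebraMap K L c) (hL : IntermediateField.adjoin K {α} = ⊤)
    (k : Kinf L) {u : HeightOneSpectrum (𝓞 L)} (hu : τ • u ≠ u)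
    (hIw : ∀ w : Above L (under K u),
      U.U w.1 ≤ Iw (Valued.v : Valuation (w.1.adicCompletion L) ℤᵐ⁰))
    (hIwK : UK.U (under K u) ≤ Iw (Valued.v : Valuation ((under K u).adicCompletion K) ℤᵐ⁰))
    {a₀ : ∀ w : HeightOneSpectrum (𝓞 L), HK (GL (Fin 2) (w.adicCompletion L)) (Lvl.Dv U w)}
    (ha₀ : {w | a₀ w ≠ 1}.Finite)
    {b₀ : ∀ v : HeightOneSpectrum (𝓞 K), HK (GL (Fin 2) (v.adicCompletion K)) (Lvl.Dv UK v)}
    (hb₀ : {v | b₀ v ≠ 1}.Finite) :
    ∃ n₀ : ℕ, ∀ n ≥ n₀,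
      ∀ a : ∀ w : HeightOneSpectrum (𝓞 L), HK (GL (Fin 2) (w.adicCompletion L)) (Lvl.Dv U w),
      {w | a w ≠ 1}.Finite → (∀ w, under K w ≠ under K u → a w = a₀ w) →
      (∀ d d', (a u).ker d d' ≠ 0 →
        RV (Valued.v : Valuation (u.adicCompletion L) ℤᵐ⁰) (exp (-(n : ℤ))) d d') →
      (∀ w : Above L (under K u), w.1 ≠ u → a w.1 = 1) →
      ∀ b : ∀ v : HeightOneSpectrum (𝓞 K), HK (GL (Fin 2) (v.adicCompletion K)) (Lvl.Dv UK v),
      {v | b v ≠ 1}.Finite → (∀ v ≠ under K u, b v = b₀ v) →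
      (∀ d d', (b (under K u)).ker d d' ≠ 0 →
        RV (Valued.v : Valuation ((under K u).adicCompletion K) ℤᵐ⁰) (exp (-(n : ℤ))) d d') →
      (∀ v, LT.GoodAt c v (b v).ker) →
      (∀ (x : PG L) (γ : PG K), PEll γ → pnm τ x = pup L γ → ∃ p : D U → D UK,
        PushD (L := L) γ p (fun d => tk a d (x • tauD hU τ d)) fun d => tk b d (γ • d)) →
      ∀ (A : HK (PG L) (D U)) (B : HK (PG K) (D UK)), (∀ x y, A.ker x y = tk a x y) →
      (∀ x y, B.ker x y = tk b x y) →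
      ∀ {w : Xi L × D U → ℝ≥0∞}, IsWeight (PG L) w →
      ∀ {w' : Xi K × D UK → ℝ≥0∞}, IsWeight (PG K) w' →
      ∫⁻ z, ∑' g : PG L,
          ‖kfull k A z (g • Prod.map (Xi.tau (τ : L ≃+* L)) (tauD hU τ) z)‖ₑ
          ∂(muZ L (D U)).withDensity w ≠ ∞ ∧
        ∫⁻ z, ∑' g : PG K, ‖kfull (tinf (Xi3.pl τ s) k) B z (g • z)‖ₑ
          ∂(muZ K (D UK)).withDensity w' ≠ ∞ ∧
        ∫ z, aut (PG L) (kfull k A) z (Prod.map (Xi.tau (τ : L ≃+* L)) (tauD hU τ) z)
            ∂(muZ L (D U)).withDensity w =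
          ∫ z, aut (PG K) (kfull (tinf (Xi3.pl τ s) k) B) z z
            ∂(muZ K (D UK)).withDensity w' := by
  obtain ⟨R, hR, hRs⟩ := k.exists_support
  obtain ⟨R', hR', hRs'⟩ := (tinf (Xi3.pl τ s) k).exists_support
  obtain ⟨n₁, hn₁⟩ := exists_pell_L (K := K) hU hτ u hu hIw
    (φ := fun v => kA (fun w => (a₀ w).ker) v) (kadm_kA (kadm_loc ha₀))
    (fun g v d d' => finprod_congr fun w => (a₀ w.1).ker_smul_smul (gmap w.1 g) _ _) R
  obtain ⟨n₂, hn₂⟩ := exists_pell_K (under K u) hIwK (kadm_loc hb₀)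
    (fun g v d d' => (b₀ v).ker_smul_smul (gmap v g) d d') R'
  refine ⟨max n₁ n₂, ?_⟩
  intro n hn a ha hau hu0 hu1 b hb hbv hv0 hgood hD A B hA hB w hw w' hw'
  have hAk : kfull k A = pker (kerXi fun w => (k w).fn) (tk a) := by
    have h : A.ker = tk a := funext fun x => funext fun y => hA x y
    rw [kfull_eq_pker, h]
  have hdown : (tinf (Xi3.pl τ s) k).ker =
      kerDown (fun w => (k w).fn) (placesE h3 hτ1 hs) := by
    rw [ker_tinf h3 hτ1 hs, kerDown_eq_kerXi (fun w => (k w).isKer)]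
  have hBk : kfull (tinf (Xi3.pl τ s) k) B =
      pker (kerDown (fun w => (k w).fn) (placesE h3 hτ1 hs)) (tk b) := by
    have h : B.ker = tk b := funext fun x => funext fun y => hB x y
    rw [← hdown, ← h]
    rfl
  rw [hAk, hBk]
  have hregL : ∀ (g : GL (Fin 2) L) (z : Xi L × D U),
      pker (kerXi fun w => (k w).fn) (tk a) z
        (g • (Xi.tau (τ : L ≃+* L) z.1, tauD hU τ z.2)) ≠ 0 →
      PEll (pnm τ (pmk g)) ∧ g 1 0 ≠ 0 := by
    intro g z h
    have h1 : k.ker z.1 (pmk g • Xi.tau (τ : L ≃+* L) z.1) ≠ 0 := left_ne_zero_of_mul h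
    have h2 : tk a z.2 (pmk g • tauD hU τ z.2) ≠ 0 := right_ne_zero_of_mul h
    have h3 : kerL (K := K) (kA fun w => (a w).ker) z.2 (pmk g • tauD hU τ z.2) ≠ 0 := by
      rw [kerL, kprod_regroup (K := K) (kadm_loc ha)]
      exact h2
    have e1 : ∀ v ≠ under K u, ∀ d d' : DA U v, kA (fun w => (a w).ker) v d d' ≠ 0 →
        kA (fun w => (a₀ w).ker) v d d' ≠ 0 := by
      intro v hv d d' hd
      have h6 : kA (fun w => (a w).ker) v d d' = kA (fun w => (a₀ w).ker) v d d' :=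
        finprod_congr fun w => by
          have e : under K w.1 = v := (under_eq_iff K w.1 v).mpr w.2
          beta_reduce
          rw [hau w.1 (by rw [e]; exact hv)]
      rwa [h6] at hd
    have e2 : ∀ d d' : DA U (under K u), kA (fun w => (a w).ker) (under K u) d d' ≠ 0 →
        RV (Valued.v : Valuation (u.adicCompletion L) ℤᵐ⁰) (exp (-(n : ℤ)))
          (d ⟨u, liesOver_under K u⟩) (d' ⟨u, liesOver_under K u⟩) ∧
        ∀ w : Above L (under K u), w.1 ≠ u → d' w = d w := by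
      intro d d' hd
      refine ⟨hu0 _ _ (kA_ne_zero hd ⟨u, liesOver_under K u⟩), fun w hw => ?_⟩
      have h7 := kA_ne_zero hd w
      beta_reduce at h7
      rw [hu1 w hw, HK.ker_one'] at h7
      by_contra hne
      exact h7 (if_neg fun h => hne h.symm)
    obtain ⟨h4, h5⟩ := hn₁ n ((le_max_left _ _).trans hn) (kA fun w => (a w).ker)
      (kadm_kA (kadm_loc ha)) e1 e2 (pmk g) z.1 z.2 (hRs _ _ h1) h3
    exact ⟨h4, h5 g rfl⟩
  have hregK : ∀ (g : GL (Fin 2) K) (z : Xi K × D UK),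
      pker (kerDown (fun w => (k w).fn) (placesE h3 hτ1 hs)) (tk b) z (g • z) ≠ 0 →
      PEll (pmk g) ∧ g 1 0 ≠ 0 := by
    intro g z h
    rw [← hdown] at h
    have h1 : (tinf (Xi3.pl τ s) k).ker z.1 (pmk g • z.1) ≠ 0 := left_ne_zero_of_mul h
    have h2 : RProd.kprod (fun v => (b v).ker) z.2 (pmk g • z.2) ≠ 0 := right_ne_zero_of_mul h
    have h4 := hn₂ n ((le_max_right _ _).trans hn) (fun v => (b v).ker) (kadm_loc hb)
      (fun v hv d d' hd => by rwa [← hbv v hv]) hv0 (pmk g) z.1 z.2 (hRs' _ _ h1) h2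
    exact ⟨h4, c_ne_zero_of_pell h4⟩
  exact ⟨fin_L (fun w => (k w).isKer) ha hregL hw, fin_K (fun w => (k w).isKer) hb hregK hw',
    geom_eq_of_push hζ hτ h3 hα hL (cycPlaces_placesE h3 hτ1 hs) (fun w => (k w).isKer)
      ha hb hD hgood hregL hregK hw hw'⟩

/-- **The geometric sides agree**, final form: from the discrete comparison `hD`. -/
theorem exists_geom_of_push (hU : GStable (L ≃ₐ[K] L) U.U)
    {ζ : K} (hζ : IsPrimitiveRoot ζ 3) (hτ : Cyc3 τ) (h3 : Module.finrank K L = 3) (hτ1 : τ ≠ 1)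
    {s : InfinitePlace K → InfinitePlace L} (hs : Xi.IsAbove (algebraMap K L) s)
    {c : Kˣ} {α : L} (hα : α ^ 3 = algebraMap K L c) (hL : IntermediateField.adjoin K {α} = ⊤)
    (k : Kinf L) {u : HeightOneSpectrum (𝓞 L)} (hu : τ • u ≠ u)
    (hIw : ∀ w : Above L (under K u),
      U.U w.1 ≤ Iw (Valued.v : Valuation (w.1.adicCompletion L) ℤᵐ⁰))
    (hIwK : UK.U (under K u) ≤ Iw (Valued.v : Valuation ((under K u).adicCompletion K) ℤᵐ⁰))
    {a₀ : ∀ w : HeightOneSpectrum (𝓞 L), HK (GL (Fin 2) (w.adicCompletion L)) (Lvl.Dv U w)}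
    (ha₀ : {w | a₀ w ≠ 1}.Finite)
    {b₀ : ∀ v : HeightOneSpectrum (𝓞 K), HK (GL (Fin 2) (v.adicCompletion K)) (Lvl.Dv UK v)}
    (hb₀ : {v | b₀ v ≠ 1}.Finite) :
    ∃ n₀ : ℕ, ∀ n ≥ n₀,
      ∀ a : ∀ w : HeightOneSpectrum (𝓞 L), HK (GL (Fin 2) (w.adicCompletion L)) (Lvl.Dv U w),
      {w | a w ≠ 1}.Finite → (∀ w, under K w ≠ under K u → a w = a₀ w) →
      (∀ d d', (a u).ker d d' ≠ 0 →
        RV (Valued.v : Valuation (u.adicCompletion L) ℤᵐ⁰) (exp (-(n : ℤ))) d d') →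
      (∀ w : Above L (under K u), w.1 ≠ u → a w.1 = 1) →
      ∀ b : ∀ v : HeightOneSpectrum (𝓞 K), HK (GL (Fin 2) (v.adicCompletion K)) (Lvl.Dv UK v),
      {v | b v ≠ 1}.Finite → (∀ v ≠ under K u, b v = b₀ v) →
      (∀ d d', (b (under K u)).ker d d' ≠ 0 →
        RV (Valued.v : Valuation ((under K u).adicCompletion K) ℤᵐ⁰) (exp (-(n : ℤ))) d d') →
      (∀ v, LT.GoodAt c v (b v).ker) →
      (∀ (x : PG L) (γ : PG K), PEll γ → pnm τ x = pup L γ → ∃ p : D U → D UK,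
        PushD (L := L) γ p (fun d => tk a d (x • tauD hU τ d)) fun d => tk b d (γ • d)) →
      ∀ (A : HK (PG L) (D U)) (B : HK (PG K) (D UK)), (∀ x y, A.ker x y = tk a x y) →
      (∀ x y, B.ker x y = tk b x y) →
      ∀ {w : Xi L × D U → ℝ≥0∞}, IsWeight (PG L) w →
      ∀ {w' : Xi K × D UK → ℝ≥0∞}, IsWeight (PG K) w' →
      ∫ z, aut (PG L) (kfull k A) z (Prod.map (Xi.tau (τ : L ≃+* L)) (tauD hU τ) z)
          ∂(muZ L (D U)).withDensity w =
        ∫ z, aut (PG K) (kfull (tinf (Xi3.pl τ s) k) B) z z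
          ∂(muZ K (D UK)).withDensity w' := by
  obtain ⟨n₀, hn₀⟩ := exists_geom_of_push_fin hU hζ hτ h3 hτ1 hs hα hL k hu hIw hIwK ha₀ hb₀
  exact ⟨n₀, fun n hn a ha hau hu0 hu1 b hb hbv hv0 hgood hD A B hA hB w hw w' hw' =>
    (hn₀ n hn a ha hau hu0 hu1 b hb hbv hv0 hgood hD A B hA hB hw hw').2.2⟩

/-! ### The discrete comparison from the local cases -/

section Case

variable {K L : Type*} [Field K] [Field L] [NumberField K] [NumberField L] [Algebra K L]
  [IsGalois K L] {τ : L ≃ₐ[K] L} {U : Lev L} {UK : Lev K}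

omit [IsGalois K L] [NumberField L] [Algebra K L] [Field L] in
theorem ker_ne_idK {b : ∀ v : HeightOneSpectrum (𝓞 K),
      HK (GL (Fin 2) (v.adicCompletion K)) (Lvl.Dv UK v)} (hb : {v | b v ≠ 1}.Finite) :
    {v | (b v).ker ≠ idK}.Finite := by
  classical
  refine hb.subset fun v hv h => hv ?_
  rw [show b v = 1 from h, HK.ker_one']
  rfl

omit [IsGalois K L] in
theorem kA_ne_idK {a : ∀ w : HeightOneSpectrum (𝓞 L),
      HK (GL (Fin 2) (w.adicCompletion L)) (Lvl.Dv U w)} (ha : {w | a w ≠ 1}.Finite) :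
    {v : HeightOneSpectrum (𝓞 K) | kA (fun w => (a w).ker) v ≠ idK}.Finite := by
  classical
  have h := (kadm_kA (K := K) (kadm_loc ha)).ind
  refine h.subset fun v hv h' => hv ?_
  rw [h']
  funext x y
  unfold idK
  congr

/-- The discrete comparison, from the cases of helper59. -/
theorem pushD_of_case (hU : GStable (L ≃ₐ[K] L) U.U) (hτ : Cyc3 τ)
    (h3 : Module.finrank K L = 3)
    {a : ∀ w : HeightOneSpectrum (𝓞 L), HK (GL (Fin 2) (w.adicCompletion L)) (Lvl.Dv U w)}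
    (ha : {w | a w ≠ 1}.Finite)
    {b : ∀ v : HeightOneSpectrum (𝓞 K), HK (GL (Fin 2) (v.adicCompletion K)) (Lvl.Dv UK v)}
    (hb : {v | b v ≠ 1}.Finite)
    (hcase : ∀ v, LocCase hU UK (kA fun w => (a w).ker) (fun v => (b v).ker) τ v)
    (x : PG L) (γ : PG K) (hγ : PEll γ) (hx : pnm τ x = pup L γ) :
    ∃ p : D U → D UK,
      PushD (L := L) γ p (fun d => tk a d (x • tauD hU τ d)) fun d => tk b d (γ • d) := by
  obtain ⟨p, hp1, hp2, hp3⟩ := exists_push_main hU UK (kA fun w => (a w).ker)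
    (fun v => (b v).ker) hτ h3 (kA_ne_idK ha) (ker_ne_idK hb) hcase hγ hx
  have hk : ∀ d : D U, kerL (kA fun w => (a w).ker) d (x • tauD hU τ d) =
      tk a d (x • tauD hU τ d) := fun d => kprod_regroup (K := K) (kadm_loc ha) _ _
  simp only [hk] at hp1 hp2 hp3
  exact ⟨p, hp1, hp2, hp3⟩

end Case

end Fermat.Agent.LT.B7

end
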