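import Fermat.Agent.LT.B7.Geom
import Fermat.Agent.LT.RegKer
import Fermat.Agent.LT.HK.Place
import Fermat.Agent.LT.Tr.SymGeom

/-!
# Regularity for pure tensors (the hypotheses `hregL`, `hregK` of `B7.geom_eq`)

* `exists_reg_K`, `exists_reg_L` : general kernels, from their local supports.
* `rv_of_ker_castHK` : the kernel of `Uⁿ` at a place where the level is Iwahori.
* `exists_hregK`, `exists_hregL` : pure tensors.
* `exists_kfull_reg_K`, `exists_kfull_reg_L` : symbols.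
-/

set_option autoImplicit false

noncomputable section

open IsDedekindDomain NumberField Function Set MeasureTheory WithZero
open scoped ENNReal WithZero Pointwise

namespace Fermat.Agent.LT.B7

open Fermat.Agent.LT.Ext Fermat.Agent.LT.Lvl Fermat.Agent.LT.Dict Fermat.Agent.LT.H3
open Fermat.Agent.LT.B8 Fermat.Agent.LT.Pos Fermat.Agent.LT.Iwa Fermat.Agent.LT.HK

/-! ### The kernel of `Uⁿ` -/

section UPow

variable {F : Type*} [Field F] [NumberField F] {U : Lev F} {u : HeightOneSpectrum (𝓞 F)}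

theorem val_datum (𝔡 : Datum (vF u)) : vF u 𝔡.ϖ = exp (-1 : ℤ) := by
  obtain ⟨π, hπ⟩ := u.valuation_exists_uniformizer F
  have h1 : vF u (algebraMap F (u.adicCompletion F) π) = exp (-1 : ℤ) := by
    rw [show vF u (algebraMap F (u.adicCompletion F) π) = u.valuation F π from
      HeightOneSpectrum.valuedAdicCompletion_eq_valuation' u _]
    exact hπ
  have h2 : exp (-1 : ℤ) ≤ vF u 𝔡.ϖ := by
    rw [← h1]
    refine 𝔡.le_of_lt _ ?_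
    rw [h1, ← exp_zero, exp_lt_exp]
    omega
  refine le_antisymm ?_ h2
  have h3 : vF u 𝔡.ϖ ≠ 0 := (Valuation.ne_zero_iff _).mpr 𝔡.ϖ_ne
  have h4 := 𝔡.ϖ_lt
  rw [← exp_log h3] at h4 ⊢
  rw [← exp_zero, exp_lt_exp] at h4
  rw [exp_le_exp]
  omega

/-- **The support of the kernel of `Uⁿ`.** -/
theorem rv_of_ker_castHK (hU : U.U u = Iw (vF u)) (𝔡 : Datum (vF u)) (n : ℕ) {x y : Lvl.Dv U u}
    (h : (castHK hU.symm (𝔡.uH ^ n)).ker x y ≠ 0) : RV (vF u) (exp (-(n : ℤ))) x y := by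
  have key : ∀ (H : Subgroup (GL (Fin 2) (u.adicCompletion F))) (hH : Iw (vF u) = H)
      (x y : Cos H), (castHK hH (𝔡.uH ^ n)).ker x y ≠ 0 → RV (vF u) (exp (-(n : ℤ))) x y := by
    intro H hH x y h
    subst hH
    rw [castHK_rfl] at h
    have h1 := rv_of_reach 𝔡 (𝔡.reach_of_ker_uH_pow_ne_zero h)
    rwa [val_datum, ← exp_nsmul, smul_neg, nsmul_eq_mul, mul_one] at h1
  exact key _ hU.symm x y h

end UPow

/-! ### General kernels -/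

section Reg

variable {F : Type*} [Field F] [NumberField F] {U : Lev F}

/-- The supports of the local kernels are bounded. -/
theorem exists_bound_loc {a : ∀ v : HeightOneSpectrum (𝓞 F), LocH U v} (ha : {v | a v ≠ 1}.Finite) :
    ∃ C : HeightOneSpectrum (𝓞 F) → ℤᵐ⁰, {v | C v ≠ 1}.Finite ∧
      ∀ v d d', (a v).ker d d' ≠ 0 → posv U v d d' ≤ C v :=
  exists_bound_K (kadm_loc ha) fun g v d d' => (a v).ker_smul_smul (gmap v g) d d'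

/-- **Regularity over `K`**, from the local supports. -/
theorem exists_reg_K [IsTotallyComplex F] (u : HeightOneSpectrum (𝓞 F))
    (hIw : U.U u ≤ Iw (vF u)) {a : ∀ v : HeightOneSpectrum (𝓞 F), LocH U v}
    (ha : {v | a v ≠ 1}.Finite) (R : ℝ) :
    ∃ n0 : ℕ, ∀ n ≥ n0, ∀ (X : Xi F → Xi F → ℂ) (A : D U → D U → ℂ),
      (∀ x x', X x x' ≠ 0 → ∀ w, cu (x w) (x' w) ≤ R) →
      (∀ d d', A d d' ≠ 0 → RV (vF u) (exp (-(n : ℤ))) (d u) (d' u) ∧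
        ∀ v ≠ u, (a v).ker (d v) (d' v) ≠ 0) →
      ∀ (g : GL (Fin 2) F) (z : Xi F × D U), pker X A z (g • z) ≠ 0 →
        PEll (pmk g) ∧ g 1 0 ≠ 0 := by
  obtain ⟨C, hC, hC'⟩ := exists_bound_loc ha
  obtain ⟨n0, hn0⟩ := exists_regular_K u hIw C hC R
  refine ⟨n0, fun n hn X A hX hA g z hz => ?_⟩
  have h1 := hX _ _ (left_ne_zero_of_mul hz)
  obtain ⟨h2, h3⟩ := hA _ _ (right_ne_zero_of_mul hz)
  have h4 := (hn0 n hn g z.1 z.2 h1 h2 fun v hv => hC' v _ _ (h3 v hv)).pell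
  exact ⟨h4, c_ne_zero_of_pell h4⟩

variable {K : Type*} [Field K] [Algebra K F]

/-- **Regularity over `L`**, twisted, from the local supports. -/
theorem exists_reg_L [IsTotallyComplex F] {hU : GStable (F ≃ₐ[K] F) U.U} {τ : F ≃ₐ[K] F}
    (hτ : Cyc3 τ) (u : HeightOneSpectrum (𝓞 F)) (hu : τ • u ≠ u)
    (hIw : ∀ i : ℕ, U.U (τ ^ i • u) ≤ Iw (vF (τ ^ i • u)))
    {a : ∀ v : HeightOneSpectrum (𝓞 F), LocH U v} (ha : {v | a v ≠ 1}.Finite) (R : ℝ) :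
    ∃ n0 : ℕ, ∀ n ≥ n0, ∀ (X : Xi F → Xi F → ℂ) (A : D U → D U → ℂ),
      (∀ x x', X x x' ≠ 0 → ∀ w, cu (x w) (x' w) ≤ R) →
      (∀ d d', A d d' ≠ 0 → RV (vF u) (exp (-(n : ℤ))) (d u) (d' u) ∧
        d (τ • u) = d' (τ • u) ∧ d (τ • τ • u) = d' (τ • τ • u) ∧
        ∀ v, v ≠ u → v ≠ τ • u → v ≠ τ • τ • u → (a v).ker (d v) (d' v) ≠ 0) →
      ∀ (g : GL (Fin 2) F) (z : Xi F × D U),
        pker X A z (g • (Xi.tau (τ : F ≃+* F) z.1, tauD hU τ z.2)) ≠ 0 →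
        PEll (pnm τ (pmk g)) ∧ g 1 0 ≠ 0 := by
  obtain ⟨C, hC, hC'⟩ := exists_bound_loc ha
  have hτ3 : τ ^ 3 = 1 := AlgEquiv.ext fun x => hτ.cube x
  obtain ⟨n0, hn0⟩ := exists_regular_L hU τ hτ3 u hu hIw C hC R
  refine ⟨n0, fun n hn X A hX hA g z hz => ?_⟩
  have h1 := hX _ _ (left_ne_zero_of_mul hz)
  obtain ⟨h2, h3, h4, h5⟩ := hA _ _ (right_ne_zero_of_mul hz)
  have h := hn0 n hn g z.1 z.2 h1 h2 h3.symm h4.symm fun v hv hv1 hv2 =>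
    hC' v _ _ (h5 v hv hv1 hv2)
  exact ⟨by rw [pnm_pmk]; exact h.1.pell, h.2⟩

end Reg

/-! ### Pure tensors -/

section Tensor

variable {F : Type*} [Field F] [NumberField F] {U : Lev F}

/-- **`hregK`.** -/
theorem exists_hregK [IsTotallyComplex F] (u : HeightOneSpectrum (𝓞 F))
    (hIw : U.U u ≤ Iw (vF u)) {a : ∀ v : HeightOneSpectrum (𝓞 F), LocH U v}
    (ha : {v | a v ≠ 1}.Finite) {κ : InfinitePlace F → ℝ → ℂ} (hκ : ∀ w, IsKer (κ w)) :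
    ∃ n0 : ℕ, ∀ n ≥ n0, ∀ a' : ∀ v : HeightOneSpectrum (𝓞 F), LocH U v, {v | a' v ≠ 1}.Finite →
      (∀ v ≠ u, a' v = a v) →
      (∀ x y, (a' u).ker x y ≠ 0 → RV (vF u) (exp (-(n : ℤ))) x y) →
      ∀ (g : GL (Fin 2) F) (z : Xi F × D U), pker (kerXi κ) (tk a') z (g • z) ≠ 0 →
        PEll (pmk g) ∧ g 1 0 ≠ 0 := by
  obtain ⟨R, -, hR⟩ := exists_supp hκ
  obtain ⟨n0, hn0⟩ := exists_reg_K u hIw ha R
  refine ⟨n0, fun n hn a' ha' h1 h2 => hn0 n hn _ _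
    (fun x x' h => cu_le_of_kerXi_ne_zero hR h) fun d d' h => ?_⟩
  have h3 := tk_ne_zero ha' h
  refine ⟨h2 _ _ (h3 u), fun v hv => ?_⟩
  rw [← h1 v hv]
  exact h3 v

variable {K : Type*} [Field K] [Algebra K F]

/-- **`hregL`.** -/
theorem exists_hregL [IsTotallyComplex F] {hU : GStable (F ≃ₐ[K] F) U.U} {τ : F ≃ₐ[K] F}
    (hτ : Cyc3 τ) (u : HeightOneSpectrum (𝓞 F)) (hu : τ • u ≠ u)
    (hIw : ∀ i : ℕ, U.U (τ ^ i • u) ≤ Iw (vF (τ ^ i • u)))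
    {a : ∀ v : HeightOneSpectrum (𝓞 F), LocH U v} (ha : {v | a v ≠ 1}.Finite)
    {κ : InfinitePlace F → ℝ → ℂ} (hκ : ∀ w, IsKer (κ w)) :
    ∃ n0 : ℕ, ∀ n ≥ n0, ∀ a' : ∀ v : HeightOneSpectrum (𝓞 F), LocH U v, {v | a' v ≠ 1}.Finite →
      (∀ v, v ≠ u → v ≠ τ • u → v ≠ τ • τ • u → a' v = a v) →
      (∀ x y, (a' u).ker x y ≠ 0 → RV (vF u) (exp (-(n : ℤ))) x y) →
      a' (τ • u) = 1 → a' (τ • τ • u) = 1 →
      ∀ (g : GL (Fin 2) F) (z : Xi F × D U),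
        pker (kerXi κ) (tk a') z (g • (Xi.tau (τ : F ≃+* F) z.1, tauD hU τ z.2)) ≠ 0 →
        PEll (pnm τ (pmk g)) ∧ g 1 0 ≠ 0 := by
  classical
  obtain ⟨R, -, hR⟩ := exists_supp hκ
  obtain ⟨n0, hn0⟩ := exists_reg_L (hU := hU) hτ u hu hIw ha R
  refine ⟨n0, fun n hn a' ha' h1 h2 h3 h4 => hn0 n hn _ _
    (fun x x' h => cu_le_of_kerXi_ne_zero hR h) fun d d' h => ?_⟩
  have h5 := tk_ne_zero ha' h
  have h6 : ∀ v, a' v = 1 → d v = d' v := fun v hv => by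
    have h7 := h5 v
    rw [hv, HK.ker_one] at h7
    by_contra hne
    exact h7 (if_neg hne)
  refine ⟨h2 _ _ (h5 u), h6 _ h3, h6 _ h4, fun v hv hv1 hv2 => ?_⟩
  rw [← h1 v hv hv1 hv2]
  exact h5 v

end Tensor

/-! ### Symbols -/

section Symbols

variable {F : Type*} [Field F] [NumberField F] {U : Lev F}

/-- `hK` of `integral_aut_kfull_eq`. -/
theorem exists_kfull_reg_K [IsTotallyComplex F] (u : HeightOneSpectrum (𝓞 F))
    (hIw : U.U u ≤ Iw (vF u)) {a : ∀ v : HeightOneSpectrum (𝓞 F), LocH U v}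
    (ha : {v | a v ≠ 1}.Finite) (k : Tr.Kinf F) :
    ∃ n0 : ℕ, ∀ n ≥ n0, ∀ A : HK (PG F) (D U),
      (∀ d d', A.ker d d' ≠ 0 → RV (vF u) (exp (-(n : ℤ))) (d u) (d' u) ∧
        ∀ v ≠ u, (a v).ker (d v) (d' v) ≠ 0) →
      ∀ γ : PG F, ¬ PEll γ → ∀ z : Xi F × D U, Tr.kfull k A z (γ • z) = 0 := by
  obtain ⟨R, -, hR⟩ := k.exists_support
  obtain ⟨n0, hn0⟩ := exists_reg_K u hIw ha R
  refine ⟨n0, fun n hn A hA γ hγ z => ?_⟩
  by_contra h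
  obtain ⟨g, rfl⟩ := pmk_surjective γ
  exact hγ (hn0 n hn k.ker A.ker hR hA g z h).1

variable {K : Type*} [Field K] [Algebra K F]

/-- `hL` of `integral_aut_kfull_eq`. -/
theorem exists_kfull_reg_L [IsTotallyComplex F] {hU : GStable (F ≃ₐ[K] F) U.U} {τ : F ≃ₐ[K] F}
    (hτ : Cyc3 τ) (u : HeightOneSpectrum (𝓞 F)) (hu : τ • u ≠ u)
    (hIw : ∀ i : ℕ, U.U (τ ^ i • u) ≤ Iw (vF (τ ^ i • u)))
    {a : ∀ v : HeightOneSpectrum (𝓞 F), LocH U v} (ha : {v | a v ≠ 1}.Finite) (k : Tr.Kinf F) :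
    ∃ n0 : ℕ, ∀ n ≥ n0, ∀ A : HK (PG F) (D U),
      (∀ d d', A.ker d d' ≠ 0 → RV (vF u) (exp (-(n : ℤ))) (d u) (d' u) ∧
        d (τ • u) = d' (τ • u) ∧ d (τ • τ • u) = d' (τ • τ • u) ∧
        ∀ v, v ≠ u → v ≠ τ • u → v ≠ τ • τ • u → (a v).ker (d v) (d' v) ≠ 0) →
      ∀ x : PG F, ¬ PEll (pnm τ x) → ∀ z : Xi F × D U,
        Tr.kfull k A z (x • Prod.map (Xi.tau (τ : F ≃+* F)) (tauD hU τ) z) = 0 := by
  obtain ⟨R, -, hR⟩ := k.exists_support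
  obtain ⟨n0, hn0⟩ := exists_reg_L (hU := hU) hτ u hu hIw ha R
  refine ⟨n0, fun n hn A hA x hx z => ?_⟩
  by_contra h
  obtain ⟨g, rfl⟩ := pmk_surjective x
  exact hx (hn0 n hn k.ker A.ker hR hA g z h).1

end Symbols

end Fermat.Agent.LT.B7
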