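import Fermat.Agent.LT.B7.Main
import Fermat.Agent.LT.B7.Reg
import Fermat.Agent.LT.B8.Pure

/-!
# Equality of the geometric sides for pure tensors `pten κ`, `pten κ'`

`exists_geom_pten` : for a pair `κ`, `κ'` in the transfer relation `Trans`, fixed outside the place
`u` (as functions of `n`), with relative position `I tⁿ I` at `u`;
`exists_geom_pten_at` : the same for `at u t * κ₀`, `at (under u) t' * κ₀'`;
`exists_geom_pten_uH` : with `t = Uⁿ`.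
-/

set_option autoImplicit false

noncomputable section

open IsDedekindDomain NumberField Function Set MeasureTheory WithZero
open scoped ENNReal Pointwise

namespace Fermat.Agent.LT.B7

open Fermat.Agent.LT.Ext Fermat.Agent.LT.Lvl Fermat.Agent.LT.Dict Fermat.Agent.LT.H3
open Fermat.Agent.LT.B8 Fermat.Agent.LT.Tr Fermat.Agent.LT.Pos Fermat.Agent.LT.Iwa
open Fermat.Agent.LT.HK Fermat.Agent.CFT.SUnits

variable {K : Type} {L : Type*} [Field K] [Field L] [NumberField K] [NumberField L] [Algebra K L]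
  [IsTotallyComplex K] [IsTotallyComplex L] [Unique (InfinitePlace K)] [IsGalois K L]
  {τ : L ≃ₐ[K] L} {U : Lev L} {UK : Lev K}

/-- **The two sides converge and agree**: the statement for two Hecke kernels. -/
def GeomEq (hU : GStable (L ≃ₐ[K] L) U.U) (τ : L ≃ₐ[K] L)
    (s : InfinitePlace K → InfinitePlace L) (k : Kinf L) (A : HK (PG L) (D U))
    (B : HK (PG K) (D UK)) : Prop :=
  ∀ {w : Xi L × D U → ℝ≥0∞}, IsWeight (PG L) w →
    ∀ {w' : Xi K × D UK → ℝ≥0∞}, IsWeight (PG K) w' →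
    ∫⁻ z, ∑' g : PG L,
        ‖kfull k A z (g • Prod.map (Xi.tau (τ : L ≃+* L)) (tauD hU τ) z)‖ₑ
        ∂(muZ L (D U)).withDensity w ≠ ∞ ∧
      ∫⁻ z, ∑' g : PG K, ‖kfull (tinf (Xi3.pl τ s) k) B z (g • z)‖ₑ
        ∂(muZ K (D UK)).withDensity w' ≠ ∞ ∧
      ∫ z, aut (PG L) (kfull k A) z (Prod.map (Xi.tau (τ : L ≃+* L)) (tauD hU τ) z)
          ∂(muZ L (D U)).withDensity w =
        ∫ z, aut (PG K) (kfull (tinf (Xi3.pl τ s) k) B) z z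
          ∂(muZ K (D UK)).withDensity w'

/-- **The geometric sides converge and agree** for `kfull k (pten κ)` and
`kfull (tinf e k) (pten κ')`, `κ` and `κ'` in the transfer relation. -/
theorem exists_geom_pten (hU : GStable (L ≃ₐ[K] L) U.U) (hB : ∀ v, BaseLevel (UK.U v) U.U)
    {ζ : K} (hζ : IsPrimitiveRoot ζ 3) (hτ : Cyc3 τ) (h3 : Module.finrank K L = 3) (hτ1 : τ ≠ 1)
    {s : InfinitePlace K → InfinitePlace L} (hs : Xi.IsAbove (algebraMap K L) s)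
    {c : Kˣ} {α : L} (hα : α ^ 3 = algebraMap K L c) (hL : IntermediateField.adjoin K {α} = ⊤)
    (k : Kinf L) {u : HeightOneSpectrum (𝓞 L)} (hu : τ • u ≠ u)
    (hIw : ∀ w : Above L (under K u),
      U.U w.1 ≤ Iw (Valued.v : Valuation (w.1.adicCompletion L) ℤᵐ⁰))
    (hIwK : UK.U (under K u) ≤ Iw (Valued.v : Valuation ((under K u).adicCompletion K) ℤᵐ⁰))
    (κ₀ : PTen U) (κ₀' : PTen UK) :
    ∃ n₀ : ℕ, ∀ n ≥ n₀, ∀ (κ : PTen U) (κ' : PTen UK),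
      (∀ w, under K w ≠ under K u → κ.k w = κ₀.k w) →
      (∀ d d', (κ.k u).ker d d' ≠ 0 →
        RV (Valued.v : Valuation (u.adicCompletion L) ℤᵐ⁰) (exp (-(n : ℤ))) d d') →
      (∀ w : Above L (under K u), w.1 ≠ u → κ.k w.1 = 1) →
      (∀ v ≠ under K u, κ'.k v = κ₀'.k v) →
      (∀ d d', (κ'.k (under K u)).ker d d' ≠ 0 →
        RV (Valued.v : Valuation ((under K u).adicCompletion K) ℤᵐ⁰) (exp (-(n : ℤ))) d d') →
      Trans hU hB τ κ κ' → (∀ v, LT.GoodAt c v (κ'.k v).ker) →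
      GeomEq hU τ s k (pten κ) (pten κ') := by
  obtain ⟨n₀, hn₀⟩ := exists_geom_of_push_fin hU hζ hτ h3 hτ1 hs hα hL k hu hIw hIwK
    (a₀ := κ₀.k) κ₀.fin (b₀ := κ₀'.k) κ₀'.fin
  refine ⟨n₀, fun n hn κ κ' hau hu0 hu1 hbv hv0 htr hgood => ?_⟩
  intro w hw w' hw'
  refine hn₀ n hn κ.k κ.fin hau hu0 hu1 κ'.k κ'.fin hbv hv0 hgood (fun x γ hγ hx => ?_)
    (pten κ) (pten κ') (ker_pten' κ) (ker_pten' κ') hw hw'
  obtain ⟨p, hp1, hp2, hp3⟩ := htr.exists_push hτ h3 hγ hx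
  simp only [ker_pten'] at hp1 hp2 hp3
  exact ⟨p, hp1, hp2, hp3⟩

/-- **The geometric sides converge and agree** for `at u t * κ₀` and `at (under u) t' * κ₀'`,
`κ₀` trivial over `under K u`, `κ₀'` trivial at `under K u`. -/
theorem exists_geom_pten_at (hU : GStable (L ≃ₐ[K] L) U.U) (hB : ∀ v, BaseLevel (UK.U v) U.U)
    {ζ : K} (hζ : IsPrimitiveRoot ζ 3) (hτ : Cyc3 τ) (h3 : Module.finrank K L = 3) (hτ1 : τ ≠ 1)
    {s : InfinitePlace K → InfinitePlace L} (hs : Xi.IsAbove (algebraMap K L) s)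
    {c : Kˣ} {α : L} (hα : α ^ 3 = algebraMap K L c) (hL : IntermediateField.adjoin K {α} = ⊤)
    (k : Kinf L) {u : HeightOneSpectrum (𝓞 L)} (hu : τ • u ≠ u)
    (hIw : ∀ w : Above L (under K u),
      U.U w.1 ≤ Iw (Valued.v : Valuation (w.1.adicCompletion L) ℤᵐ⁰))
    (hIwK : UK.U (under K u) ≤ Iw (Valued.v : Valuation ((under K u).adicCompletion K) ℤᵐ⁰))
    {κ₀ : PTen U} (h₀ : ∀ w, under K w = under K u → κ₀.k w = 1)
    {κ₀' : PTen UK} (h₀' : κ₀'.k (under K u) = 1) :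
    ∃ n₀ : ℕ, ∀ n ≥ n₀, ∀ (t : LocH U u) (t' : LocH UK (under K u)),
      (∀ d d', t.ker d d' ≠ 0 →
        RV (Valued.v : Valuation (u.adicCompletion L) ℤᵐ⁰) (exp (-(n : ℤ))) d d') →
      (∀ d d', t'.ker d d' ≠ 0 →
        RV (Valued.v : Valuation ((under K u).adicCompletion K) ℤᵐ⁰) (exp (-(n : ℤ))) d d') →
      Trans hU hB τ (PTen.at u t * κ₀) (PTen.at (under K u) t' * κ₀') →
      (∀ v, LT.GoodAt c v ((PTen.at (under K u) t' * κ₀').k v).ker) →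
      GeomEq hU τ s k (atPl U u t * pten κ₀) (atPl UK (under K u) t' * pten κ₀') := by
  obtain ⟨n₀, hn₀⟩ := exists_geom_pten hU hB hζ hτ h3 hτ1 hs hα hL k hu hIw hIwK κ₀ κ₀'
  refine ⟨n₀, fun n hn t t' ht ht' htr hgood => ?_⟩
  have e1 : atPl U u t * pten κ₀ = pten (PTen.at u t * κ₀) := by rw [map_mul, pten_at]
  have e2 : atPl UK (under K u) t' * pten κ₀' = pten (PTen.at (under K u) t' * κ₀') := by
    rw [map_mul, pten_at]
  rw [e1, e2]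
  intro w hw w' hw'
  refine hn₀ n hn _ _ (fun w hw => ?_) ?_ (fun w hw => ?_) (fun v hv => ?_) ?_ htr hgood hw hw'
  · rw [PTen.mul_k, PTen.at_of_ne (fun h => hw (by rw [h])), one_mul]
  · rw [PTen.mul_k, PTen.at_self, h₀ u rfl, mul_one]
    exact ht
  · rw [PTen.mul_k, PTen.at_of_ne hw, one_mul,
      h₀ w.1 ((under_eq_iff K w.1 (under K u)).mpr w.2)]
  · rw [PTen.mul_k, PTen.at_of_ne hv, one_mul]
  · rw [PTen.mul_k, PTen.at_self, h₀', mul_one]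
    exact ht'

/-- the word `κ₁ * (Uⁿ at u * κ₂)` -/
def uWord {F : Type*} [Field F] [NumberField F] {U : Lev F} {u : HeightOneSpectrum (𝓞 F)}
    (hI : U.U u = Iw (vF u)) (𝔡 : Datum (vF u)) (κ₁ κ₂ : PTen U) (n : ℕ) : PTen U :=
  κ₁ * (PTen.at u (castHK hI.symm (𝔡.uH ^ n)) * κ₂)

theorem pten_uWord {F : Type*} [Field F] [NumberField F] {U : Lev F}
    {u : HeightOneSpectrum (𝓞 F)} (hI : U.U u = Iw (vF u)) (𝔡 : Datum (vF u)) (κ₁ κ₂ : PTen U)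
    (n : ℕ) : pten (uWord hI 𝔡 κ₁ κ₂ n) = pten κ₁ * (uAt hI 𝔡 ^ n * pten κ₂) := by
  have h : uAt hI 𝔡 ^ n = atPl U u (castHK hI.symm (𝔡.uH ^ n)) := by
    rw [uAt, ← map_pow]
    rfl
  rw [uWord, map_mul, map_mul, pten_at, h]

theorem uWord_k_of_ne {F : Type*} [Field F] [NumberField F] {U : Lev F}
    {u v : HeightOneSpectrum (𝓞 F)} (hI : U.U u = Iw (vF u)) (𝔡 : Datum (vF u))
    (κ₁ κ₂ : PTen U) (n : ℕ) (hv : v ≠ u) :
    (uWord hI 𝔡 κ₁ κ₂ n).k v = κ₁.k v * κ₂.k v := by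
  rw [uWord, PTen.mul_k, PTen.mul_k, PTen.at_of_ne hv, one_mul]

theorem uWord_k_self {F : Type*} [Field F] [NumberField F] {U : Lev F}
    {u : HeightOneSpectrum (𝓞 F)} (hI : U.U u = Iw (vF u)) (𝔡 : Datum (vF u))
    {κ₁ κ₂ : PTen U} (n : ℕ) (h1 : κ₁.k u = 1) (h2 : κ₂.k u = 1) :
    (uWord hI 𝔡 κ₁ κ₂ n).k u = castHK hI.symm (𝔡.uH ^ n) := by
  rw [uWord, PTen.mul_k, PTen.mul_k, PTen.at_self, h1, h2, one_mul, mul_one]

/-- **The geometric sides converge and agree** for the words `κ₁ * (Uⁿ at u * κ₂)` and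
`κ₁' * (Uⁿ at (under u) * κ₂')`. -/
theorem exists_geom_uWord (hU : GStable (L ≃ₐ[K] L) U.U) (hB : ∀ v, BaseLevel (UK.U v) U.U)
    {ζ : K} (hζ : IsPrimitiveRoot ζ 3) (hτ : Cyc3 τ) (h3 : Module.finrank K L = 3) (hτ1 : τ ≠ 1)
    {s : InfinitePlace K → InfinitePlace L} (hs : Xi.IsAbove (algebraMap K L) s)
    {c : Kˣ} {α : L} (hα : α ^ 3 = algebraMap K L c) (hL : IntermediateField.adjoin K {α} = ⊤)
    (k : Kinf L) {u : HeightOneSpectrum (𝓞 L)} (hu : τ • u ≠ u)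
    (hIw : ∀ w : Above L (under K u),
      U.U w.1 ≤ Iw (Valued.v : Valuation (w.1.adicCompletion L) ℤᵐ⁰))
    (hI : U.U u = Iw (vF u)) (𝔡 : Datum (vF u))
    (hI' : UK.U (under K u) = Iw (vF (under K u))) (𝔡' : Datum (vF (under K u)))
    {κ₁ κ₂ : PTen U} (h₁ : ∀ w, under K w = under K u → κ₁.k w = 1)
    (h₂ : ∀ w, under K w = under K u → κ₂.k w = 1)
    {κ₁' κ₂' : PTen UK} (h₁' : κ₁'.k (under K u) = 1) (h₂' : κ₂'.k (under K u) = 1)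
    (htr : ∀ n, Trans hU hB τ (uWord hI 𝔡 κ₁ κ₂ n) (uWord hI' 𝔡' κ₁' κ₂' n))
    (hgood : ∀ n v, LT.GoodAt c v ((uWord hI' 𝔡' κ₁' κ₂' n).k v).ker) :
    ∃ n₀ : ℕ, ∀ n ≥ n₀, GeomEq hU τ s k (pten κ₁ * (uAt hI 𝔡 ^ n * pten κ₂))
      (pten κ₁' * (uAt hI' 𝔡' ^ n * pten κ₂')) := by
  obtain ⟨n₀, hn₀⟩ := exists_geom_pten hU hB hζ hτ h3 hτ1 hs hα hL k hu hIw hI'.le
    (κ₁ * κ₂) (κ₁' * κ₂')
  refine ⟨n₀, fun n hn => ?_⟩
  rw [← pten_uWord, ← pten_uWord]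
  intro w hw w' hw'
  refine hn₀ n hn _ _ (fun w hw => ?_) ?_ (fun w hw => ?_) (fun v hv => ?_) ?_ (htr n)
    (hgood n) hw hw'
  · exact uWord_k_of_ne hI 𝔡 κ₁ κ₂ n (fun h => hw (by rw [h]))
  · rw [uWord_k_self hI 𝔡 n (h₁ u rfl) (h₂ u rfl)]
    exact fun d d' h => rv_of_ker_castHK hI 𝔡 n h
  · have e := (under_eq_iff K w.1 (under K u)).mpr w.2
    rw [uWord_k_of_ne hI 𝔡 κ₁ κ₂ n hw, h₁ _ e, h₂ _ e, mul_one]
  · exact uWord_k_of_ne hI' 𝔡' κ₁' κ₂' n hv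
  · rw [uWord_k_self hI' 𝔡' n h₁' h₂']
    exact fun d d' h => rv_of_ker_castHK hI' 𝔡' n h

end Fermat.Agent.LT.B7

end
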